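import Fermat.Agent.S56.GW.LEC.H2.Final
import Fermat.Agent.S56.GW.EC.H3Loc.Stmt

/-!
# S56 / [GW-LEC]: the local Euler characteristic seam `s56gw_LEC_stmt`, CLOSED (prefix `s56lh_`)

`s56lh_LEC_closed : s56gw_LEC_stmt` = helper28's `s56l_LEC'` fed with helper15's
`s56eh_H3_stmt` (vanishing of `H³`) and `s56lh_BRcard` (`#H²(U, μ_p) = p`).
-/

set_option autoImplicit false

namespace Fermat.Agent.S56

open Fermat.Agent.S55 ExtCitation

/-- **[GW-LEC] closed**: Tate's local Euler characteristic formula, no hypothesis left. -/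
theorem s56lh_LEC_closed : s56gw_LEC_stmt := s56lh_LEC s56eh_H3_stmt

end Fermat.Agent.S56
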