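import Fermat.Agent.S56.GW.LEC.H2.Main
import Fermat.Agent.S56.GW.LEC.BR

/-!
# S56 / [GW-LEC] cell [LEC-H2]: the seam `s56l_BRcard_stmt` closed (prefix `s56lh_`)

* `s56lh_BRcard : s56l_BRcard_stmt` (helper28's statement in `GW/LEC/BR.lean`, verbatim);
* `s56lh_BR : s56l_BR_stmt`;
* `s56lh_LEC : s56elt_H3_stmt → s56gw_LEC_stmt`: the local Euler characteristic formula modulo the
  vanishing of `H³` only.
-/

set_option autoImplicit false

namespace Fermat.Agent.S56

open Fermat.Agent.S55 ExtCitation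

/-- **[LEC-H2]**: `#H²(U, μ_p) = p` for every open subgroup `U` of `G_q`. -/
theorem s56lh_BRcard : s56l_BRcard_stmt := s56lh_main

/-- **[LEC-H2]** in the nested form with the conjugation statement. -/
theorem s56lh_BR : s56l_BR_stmt := s56lbr_main s56lh_BRcard

/-- **[GW-LEC]** modulo the vanishing of `H³` only. -/
theorem s56lh_LEC (h3 : s56elt_H3_stmt) : s56gw_LEC_stmt := s56l_LEC' h3 s56lh_BRcard

end Fermat.Agent.S56
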