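import Fermat.Agent.S56.GW.Dual.Inv.Quot
import Fermat.Agent.S55.Trans.Krasner
import Fermat.Agent.S55.LocalQ.Final
import Fermat.Agent.S55.Idele.LocalSeam

/-!
# S56 / [GW-LEC] cell [LEC-H2], part 3: plain levels of large local degree (prefix `s56lh_`)

`s56lh_exists_deg`: for every `m > 0` and every plain level `a₀` there is a plain level `a ≥ a₀`
with `m ∣ #D_q(a)` (the local degree `[a.L·ℚ_q : ℚ_q]`).  Input: enough unramified extensions of
`ℚ_q` (`lq_exists_unram_ext`) and Krasner's lemma (`tl_exists_adjoin_padicEmbedding`).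
-/

set_option autoImplicit false

open ExtCitation

namespace Fermat.Agent.S56

open Fermat.Agent.S55

local notation "Qbar" => AlgebraicClosure ℚ

noncomputable section

variable (q : Nat.Primes)

/-- **Krasner**: every finite extension of `ℚ_q` inside `PadicAlgCl q` lies in `a.L·ℚ_q` for a
plain level `a`. -/
theorem s56lh_exists_plain_ge (L' : IntermediateField ℚ_[(q : ℕ)] (PadicAlgCl (q : ℕ)))
    [FiniteDimensional ℚ_[(q : ℕ)] ↥L'] (a₀ : s56gd_Fld) :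
    ∃ a : s56gd_Fld, a₀ ≤ a ∧ L' ≤ il_Lq (q : ℕ) a.L := by
  haveI : Fact (q : ℕ).Prime := ⟨q.2⟩
  obtain ⟨α, hα⟩ := Field.exists_primitive_element ℚ_[(q : ℕ)] ↥L'
  have hL' : L' = IntermediateField.adjoin ℚ_[(q : ℕ)] {(α : PadicAlgCl (q : ℕ))} := by
    rw [← IntermediateField.lift_adjoin_simple, hα, IntermediateField.lift_top]
  obtain ⟨y₀, hy₀⟩ := tl_exists_adjoin_padicEmbedding (q : ℕ) (α : PadicAlgCl (q : ℕ))
  haveI : Algebra.IsAlgebraic ℚ Qbar := AlgebraicClosure.isAlgebraic ℚ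
  haveI : FiniteDimensional ℚ ↥(IntermediateField.adjoin ℚ {y₀}) :=
    IntermediateField.adjoin.finiteDimensional (Algebra.IsIntegral.isIntegral y₀)
  let a : s56gd_Fld := (s56gdi_closure (IntermediateField.adjoin ℚ {y₀})).sup a₀
  have hy₀a : y₀ ∈ a.L :=
    (s56gd_Fld.le_sup_left _ _ : (s56gdi_closure (IntermediateField.adjoin ℚ {y₀})).L ≤ a.L)
      (s56gdi_le_closure _ (IntermediateField.mem_adjoin_simple_self ℚ y₀))
  refine ⟨a, s56gd_Fld.le_sup_right _ _, ?_⟩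
  rw [hL', IntermediateField.adjoin_simple_le_iff]
  have h1 : IntermediateField.adjoin ℚ_[(q : ℕ)] {padicEmbedding (q : ℕ) y₀} ≤
      il_Lq (q : ℕ) a.L := by
    rw [IntermediateField.adjoin_simple_le_iff]
    exact il_emb_mem (q : ℕ) a.L ⟨y₀, hy₀a⟩
  exact h1 hy₀

/-- **Plain levels of large local degree.** -/
theorem s56lh_exists_deg (a₀ : s56gd_Fld) (m : ℕ) (hm : 0 < m) :
    ∃ a : s56gd_Fld, a₀ ≤ a ∧ m ∣ Nat.card ↥(s56gdi_D q a) := by
  haveI : Fact (q : ℕ).Prime := ⟨q.2⟩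
  obtain ⟨L', -, hfd, hgal, hdvd⟩ := lq_exists_unram_ext (il_Lq (q : ℕ) a₀.L) m hm
  haveI := hfd
  haveI := hgal
  obtain ⟨a, ha, hle⟩ := s56lh_exists_plain_ge q L' a₀
  refine ⟨a, ha, ?_⟩
  have h1 : Nat.card (↥L' ≃ₐ[ℚ_[(q : ℕ)]] ↥L') ∣
      Nat.card (↥(il_Lq (q : ℕ) a.L) ≃ₐ[ℚ_[(q : ℕ)]] ↥(il_Lq (q : ℕ) a.L)) :=
    Subgroup.card_dvd_of_surjective (lq_res hle) (lq_res_surjective hle)
  have h2 : (lq_inertia L').index ∣ Nat.card (↥L' ≃ₐ[ℚ_[(q : ℕ)]] ↥L') :=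
    Subgroup.index_dvd_card _
  have h3 : Nat.card ↥(s56gdi_D q a) =
      Nat.card (↥(il_Lq (q : ℕ) a.L) ≃ₐ[ℚ_[(q : ℕ)]] ↥(il_Lq (q : ℕ) a.L)) :=
    (Nat.card_congr (il_galEquiv (q : ℕ) a.L).toEquiv).symm
  rw [h3]
  exact hdvd.trans (h2.trans h1)

end

end Fermat.Agent.S56
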