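/-
S56, node [GW-LEC], cell [LEC-H2], the half (≥ p) of `s56l_BRcard_stmt` (helper14).
Prefix `s56lhx_`.
For every subgroup `U` of `G_q = Gal(ℚ̄_q/ℚ_q)` containing a level, `Br(K_U)[p] ≠ 0`:
  `s56lhx_main p q U hU : ∃ x : lvH2 (s56esh_LU (tl_levelsLoc q) U) (tl_locUnits q),
      p • x = 0 ∧ x ≠ 0`.
Route: a `p`-primary class `y ∈ H²(G_q, Ω)` with `[G_q : U] • y ≠ 0` (local invariants of a plain
level whose decomposition group has order divisible by `p^(a+1)`, `p^a ∥ [G_q : U]`); its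
restriction to `U` is non-zero because `trace ∘ ι = [G_q : U]` on `Coind_U^{G_q} Ω` and Shapiro's
map is injective; a non-zero `p`-primary element has a multiple of exact order `p`.
-/
import Fermat.Agent.S56.GW.Dual.Inv.Main
import Fermat.Agent.S56.GW.LEC.Deg
import Fermat.Agent.S56.GW.EC.Sh.Trace

set_option autoImplicit false

open ExtCitation

namespace Fermat.Agent.S56

open Fermat.Agent.S55

/-! ### Abstract lemmas -/

/-- A non-zero `p`-primary element of an additive group has a multiple of exact order `p`. -/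
theorem s56lhx_exists_order_p {A : Type*} [AddCommGroup A] (p : ℕ) (z : A) (hz : z ≠ 0)
    (hp : tt_IsPPrimary p z) : ∃ x : A, p • x = 0 ∧ x ≠ 0 ∧ ∃ k : ℕ, x = p ^ k • z := by
  classical
  obtain ⟨N, hN⟩ := hp
  induction N with
  | zero =>
    rw [pow_zero, one_smul] at hN
    exact absurd hN hz
  | succ N ih =>
    by_cases h : p ^ N • z = 0
    · exact ih h
    · refine ⟨p ^ N • z, ?_, h, N, rfl⟩
      rw [smul_smul, ← pow_succ']
      exact hN

section Abstract

variable {G : Type*} [Group G] (L : LevelSys G) (U : Subgroup G)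
  (X : Type*) [AddCommGroup X] [DistribMulAction G X]

/-- `trace_* (ι_* y) = [G : U] • y` on `H²`. -/
theorem s56lhx_trace_iota_H2 [Fintype (G ⧸ U)] (hX : L.IsSmooth X) (y : lvH2 L X) :
    (LvMor.ofCoeff L (s56esh_trace L U X) s56esh_trace_equivariant).H2
        ((LvMor.ofCoeff L (s56esh_iota L U X hX) (s56esh_iota_equivariant hX)).H2 y)
      = Fintype.card (G ⧸ U) • y := by
  obtain ⟨c, rfl⟩ := lvH2mk_surjective y
  rw [LvMor.H2_mk, LvMor.H2_mk, ← map_nsmul]
  congr 1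
  apply Subtype.ext
  funext gh
  show s56esh_trace L U X (s56esh_iota L U X hX ((c : G × G → X) gh)) = _
  rw [s56esh_trace_iota]
  rfl

/-- The restriction to `U` of a class `y` with `[G : U] • y ≠ 0` is non-zero. -/
theorem s56lhx_res_ne_zero [Fintype (G ⧸ U)] (hU : ∃ V ∈ L.levels, V ≤ U) (hX : L.IsSmooth X)
    (y : lvH2 L X) (hy : Fintype.card (G ⧸ U) • y ≠ 0) : (s56esh_res L U X).H2 y ≠ 0 := by
  intro h0
  apply hy
  have hXU : (s56esh_LU L U).IsSmooth X := by
    intro x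
    obtain ⟨W, hW, h⟩ := hX x
    exact ⟨W.comap U.subtype, ⟨W, hW, rfl⟩, fun u hu => h (u : G) hu⟩
  rw [← s56esh_mor_comp_iota hX, LvMor.H2_comp] at h0
  have h1 : (LvMor.ofCoeff L (s56esh_iota L U X hX) (s56esh_iota_equivariant hX)).H2 y = 0 :=
    (s56esh_H2_bijective hU hXU).1 (h0.trans (map_zero _).symm)
  rw [← s56lhx_trace_iota_H2 L U X hX y, h1, map_zero]

end Abstract

/-! ### The local classes -/

section Local

variable (p : ℕ) [Fact p.Prime] (q : Nat.Primes)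

/-- For every `n ≠ 0` there is a `p`-primary class of `H²(G_q, Ω)` not killed by `n`. -/
theorem s56lhx_exists_class (n : ℕ) (hn : n ≠ 0) :
    ∃ y : lvH2 (tl_levelsLoc q) (tl_locUnits q), tt_IsPPrimary p y ∧ n • y ≠ 0 := by
  have hp : p.Prime := Fact.out
  obtain ⟨a, ha⟩ := s56ldg_main q (p ^ (n.factorization p + 1)) (pow_pos hp.pos _)
  obtain ⟨u, hu, hord⟩ := (ils_Pq p q a.L).inv_gen
  refine ⟨s56gdi_infl q a u, s56gdi_isPPrimary_infl p q u hu, fun h0 => ?_⟩
  have h1 : n • s56gdi_inv p q (s56gdi_infl q a u) = 0 := by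
    rw [← s56gdi_inv_nsmul p q n _ (s56gdi_isPPrimary_infl p q u hu), h0, s56gdi_inv_zero]
  rw [s56gdi_inv_infl p q a u hu, PClassModule.invTop_apply,
    ← addOrderOf_dvd_iff_nsmul_eq_zero, hord] at h1
  have hcard : Nat.card ↥(il_D (q : ℕ) a.L) ≠ 0 := Nat.card_pos.ne'
  have h2 : p ^ (n.factorization p + 1) ∣ ordProj[p] (Nat.card ↥(il_D (q : ℕ) a.L)) := by
    apply pow_dvd_pow
    exact (hp.pow_dvd_iff_le_factorization hcard).1 ha
  exact Nat.pow_succ_factorization_not_dvd hn hp (h2.trans h1)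

/-- **[LEC-H2], the half (≥ p)**: `Br(K_U)[p] ≠ 0` for every open subgroup `U` of `G_q`. -/
theorem s56lhx_main (U : Subgroup (primeLocalGaloisGroup q))
    (hU : ∃ V₀ ∈ (tl_levelsLoc q).levels, V₀ ≤ U) :
    ∃ x : lvH2 (s56esh_LU (tl_levelsLoc q) U) (tl_locUnits q), p • x = 0 ∧ x ≠ 0 := by
  classical
  obtain ⟨V₀, hV₀, hV₀U⟩ := hU
  have hfi₀ : V₀.FiniteIndex := (tl_levelsLoc q).finiteIndex V₀ hV₀
  have hfi : U.FiniteIndex := Subgroup.finiteIndex_of_le hV₀U
  have : Finite (primeLocalGaloisGroup q ⧸ U) := Subgroup.finite_quotient_of_finiteIndex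
  have : Fintype (primeLocalGaloisGroup q ⧸ U) := Fintype.ofFinite _
  have hn : Fintype.card (primeLocalGaloisGroup q ⧸ U) ≠ 0 := Fintype.card_ne_zero
  obtain ⟨y, hy, hny⟩ := s56lhx_exists_class p q _ hn
  have hz := s56lhx_res_ne_zero (tl_levelsLoc q) U (tl_locUnits q) ⟨V₀, hV₀, hV₀U⟩
    (tl_isSmooth_locUnits q) y hny
  obtain ⟨x, hx, hx0, -⟩ := s56lhx_exists_order_p p _ hz
    (tt_isPPrimary_map (s56esh_res (tl_levelsLoc q) U (tl_locUnits q)).H2 hy)
  exact ⟨x, hx, hx0⟩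

end Local

end Fermat.Agent.S56
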