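import Fermat.Agent.S55.Level.LES

/-!
# S56 / [GW-LEC] cell [LEC-H2], part 1: the abstract Kummer step (prefix `s56lh_`)

For a short exact sequence `0 → A → B → B → 0` of `G`-modules whose second map is multiplication by
`n`, with `B` smooth and `lvH1 L B = 0` (Hilbert 90), the map `lvH2 L A → lvH2 L B` is injective with
image the `n`-torsion of `lvH2 L B`.
-/

set_option autoImplicit false

namespace Fermat.Agent.S56

open Fermat.Agent.S55

section Kummer

variable {G : Type*} [Group G] (L : LevelSys G) {A B : Type*} [AddCommGroup A]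
  [DistribMulAction G A] [AddCommGroup B] [DistribMulAction G B]

/-- A coefficient endomorphism `x ↦ n • x` induces `n •` on `lvH2`. -/
theorem s56lh_H2_nsmul (m : LvMor L B L B) (hf : m.f = MonoidHom.id G) (n : ℕ)
    (hφ : ∀ x, m.φ x = n • x) (z : lvH2 L B) : m.H2 z = n • z := by
  obtain ⟨c, rfl⟩ := lvH2mk_surjective z
  rw [LvMor.H2_mk, ← map_nsmul]
  congr 1
  apply Subtype.ext
  funext ⟨g, h⟩
  rw [LvMor.Z2_coe, LvMor.pull2_apply, hf, hφ, AddSubgroup.coe_nsmul, Pi.smul_apply]
  rfl

variable (E : LvSES G A B B) (n : ℕ) (hπ : ∀ b, E.π b = n • b) (hB : L.IsSmooth B)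
  (hH1 : ∀ z : lvH1 L B, z = 0)

include hB hH1 in
/-- **Kummer, injectivity**: `lvH2 L A → lvH2 L B` is injective when `lvH1 L B = 0`. -/
theorem s56lh_kummer_injective : Function.Injective (E.mi L).H2 := by
  rw [injective_iff_map_eq_zero]
  intro y hy
  obtain ⟨x, rfl⟩ := (E.exact_H2A L hB y).1 hy
  rw [hH1 x, map_zero]

include hπ hB in
/-- **Kummer, image**: the image of `lvH2 L A → lvH2 L B` is the `n`-torsion. -/
theorem s56lh_kummer_range (z : lvH2 L B) :
    n • z = 0 ↔ ∃ y : lvH2 L A, (E.mi L).H2 y = z := by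
  rw [← E.exact_H2B L hB z, s56lh_H2_nsmul L (E.mπ L) rfl n hπ z]

end Kummer

end Fermat.Agent.S56
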