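import Fermat.Agent.S56.GW.Dual.Inv.Quot

/-!
# S56 / [GW-LEC] cell [LEC-H2], part 2: finite quotients of an open subgroup of `G_q`
(prefix `s56lh_`)

For a subgroup `U` of the local Galois group `G_q` and a plain level `a` with
`Fix(a.L) ∩ G_q ≤ U`:

* `s56lh_H q a U : Subgroup D_q(a)` the image of `U`;
* `s56lh_QU q a U hU : LvQuot (L_U) (tl_locUnits q) ↥H (tl_Act (tt_res H X_q(a)))`;
* `s56lh_QU_H2_injective`: inflation is injective on `H²` (Hilbert 90);
* `s56lh_exists_level`: every class of `lvH2 L_U Ω` is inflated from such a level, above any given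
  plain level;
* `s56lh_index`: `[D_q(a) : H] = [G_q : U]`.
-/

set_option autoImplicit false

open CategoryTheory groupCohomology ExtCitation

namespace Fermat.Agent.S56

open Fermat.Agent.S55

local notation "Qbar" => AlgebraicClosure ℚ
local notation "GQ" => (AlgebraicClosure ℚ ≃ₐ[ℚ] AlgebraicClosure ℚ)

noncomputable section

variable (q : Nat.Primes) (a : s56gd_Fld) (U : Subgroup (primeLocalGaloisGroup q))

/-- The level system of the subgroup `U` of `G_q`. -/
abbrev s56lh_LU : LevelSys ↥U := (tl_levelsLoc q).comap U.subtype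

/-- The image of `U` in the decomposition group `D_q(a)`. -/
abbrev s56lh_H : Subgroup ↥(s56gdi_D q a) := U.map (s56gdi_locq q a)

/-- `U → H`. -/
def s56lh_qU : ↥U →* ↥(s56lh_H q a U) := (s56gdi_locq q a).subgroupMap U

theorem s56lh_qU_coe (u : ↥U) :
    ((s56lh_qU q a U u : ↥(s56lh_H q a U)) : ↥(s56gdi_D q a)) = s56gdi_locq q a (u : _) := rfl

theorem s56lh_qU_surjective : Function.Surjective (s56lh_qU q a U) :=
  (s56gdi_locq q a).subgroupMap_surjective U

theorem s56lh_mem_ker_qU (u : ↥U) :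
    u ∈ (s56lh_qU q a U).ker ↔
      primeLocalToGlobal q (u : primeLocalGaloisGroup q) ∈ a.L.fixingSubgroup := by
  rw [MonoidHom.mem_ker, Subtype.ext_iff, s56lh_qU_coe, ← s56gdi_mem_ker_locq, MonoidHom.mem_ker]
  rfl

theorem s56lh_ker_qU :
    (s56lh_qU q a U).ker =
      (a.L.fixingSubgroup.comap (primeLocalToGlobal q)).comap U.subtype := by
  ext u
  rw [s56lh_mem_ker_qU]
  rfl

/-- The model of the fixed points: `X_q(a)` restricted to `H`. -/
abbrev s56lh_X : Rep.{0} ℤ ↥(s56lh_H q a U) := tt_res (s56lh_H q a U) (il_Xq q a.L)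

/-- **The finite quotient `H` of `U` for the module `(PadicAlgCl q)ˣ`.** -/
def s56lh_QU (hU : a.L.fixingSubgroup.comap (primeLocalToGlobal q) ≤ U) : LvQuot (s56lh_LU q U) (tl_locUnits q) ↥(s56lh_H q a U)
    (tl_Act (s56lh_X q a U)) where
  q := s56lh_qU q a U
  q_surj := s56lh_qU_surjective q a U
  level := ⟨(a.L.fixingSubgroup.comap (primeLocalToGlobal q)).comap U.subtype,
    ⟨a.L.fixingSubgroup.comap (primeLocalToGlobal q),
      ⟨a.L.fixingSubgroup, ⟨a.L, inferInstance, rfl⟩, rfl⟩, rfl⟩,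
    fun u hu => (s56lh_mem_ker_qU q a U u).2 hu⟩
  φ := il_lam q a.L
  φ_inj := il_lam_injective q a.L
  equivariant := fun u x =>
    il_lam_equiv q a.L (u : primeLocalGaloisGroup q) (s56gdi_locq q a (u : _)) rfl x
  range_eq := fun x hx => il_lam_range q a.L x (fun τ hτ => by
    have hτ' : primeLocalToGlobal q τ ∈ a.L.fixingSubgroup := by
      rw [← s56gdi_q_eq_one_iff]
      exact hτ
    exact hx ⟨τ, hU hτ'⟩ ((s56lh_mem_ker_qU q a U ⟨τ, hU hτ'⟩).2 hτ'))

variable (hU : a.L.fixingSubgroup.comap (primeLocalToGlobal q) ≤ U)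

@[simp] theorem s56lh_QU_q : (s56lh_QU q a U hU).q = s56lh_qU q a U := rfl

@[simp] theorem s56lh_QU_φ (x : tl_Act (s56lh_X q a U)) :
    (s56lh_QU q a U hU).φ x = il_lam q a.L x := rfl

theorem s56lh_QU_ker :
    (s56lh_QU q a U hU).q.ker =
      (a.L.fixingSubgroup.comap (primeLocalToGlobal q)).comap U.subtype :=
  s56lh_ker_qU q a U

/-- Hilbert 90 for the kernel of `U → H`. -/
theorem s56lh_h90_ker (c₀ : (s56lh_QU q a U hU).q.ker → tl_locUnits q) (hc : IsCocycle₁ c₀)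
    (hlc : ((s56lh_LU q U).comap (s56lh_QU q a U hU).q.ker.subtype).IsLC1 c₀) :
    ∃ x : tl_locUnits q, ∀ n : (s56lh_QU q a U hU).q.ker, c₀ n = n • x - x := by
  obtain ⟨_, ⟨_, ⟨_, ⟨_, ⟨F, hF, rfl⟩, rfl⟩, rfl⟩, rfl⟩, hinv⟩ := hlc
  have := hF
  have hmem : ∀ n : ↥(a.L.fixingSubgroup.comap (primeLocalToGlobal q)),
      (⟨n.1, hU n.2⟩ : ↥U) ∈ (s56lh_QU q a U hU).q.ker := fun n =>
    (s56lh_mem_ker_qU q a U ⟨n.1, hU n.2⟩).2 n.2
  obtain ⟨x, hx⟩ := tl_locUnits_coboundary_of_fixing q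
    (a.L.fixingSubgroup.comap (primeLocalToGlobal q))
    (fun n => c₀ ⟨⟨n.1, hU n.2⟩, hmem n⟩)
    (fun g h => hc ⟨⟨g.1, hU g.2⟩, hmem g⟩ ⟨⟨h.1, hU h.2⟩, hmem h⟩) F
    (fun g s hs => hinv ⟨⟨g.1, hU g.2⟩, hmem g⟩ ⟨⟨s.1, hU s.2⟩, hmem s⟩ hs)
  refine ⟨x, fun n => ?_⟩
  have hn : primeLocalToGlobal q ((n : ↥U) : primeLocalGaloisGroup q) ∈ a.L.fixingSubgroup :=
    (s56lh_mem_ker_qU q a U n).1 n.2
  exact hx ⟨((n : ↥U) : primeLocalGaloisGroup q), hn⟩

/-- Inflation of the units from `H` to `U` is injective on `H²` (Hilbert 90). -/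
theorem s56lh_QU_H2_injective : Function.Injective (s56lh_QU q a U hU).mor.H2 :=
  (s56lh_QU q a U hU).H2_injective_of_ker (s56lh_h90_ker q a U hU)

include hU in
/-- `[D_q(a) : H] = [G_q : U]`. -/
theorem s56lh_index : (s56lh_H q a U).index = U.index :=
  Subgroup.index_map_eq U (s56gdi_locq_surjective q a) (by rw [s56gdi_ker_locq]; exact hU)

include hU in
/-- `#D_q(a) = #H · [G_q : U]`. -/
theorem s56lh_card_mul_index :
    Nat.card ↥(s56lh_H q a U) * U.index = Nat.card ↥(s56gdi_D q a) := by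
  rw [← s56lh_index q a U hU]
  exact (s56lh_H q a U).card_mul_index

omit hU in
/-- The hypothesis `Fix(a.L) ∩ G_q ≤ U` passes to bigger plain levels. -/
theorem s56lh_hU_mono {a b : s56gd_Fld} (h : a ≤ b)
    (hU : a.L.fixingSubgroup.comap (primeLocalToGlobal q) ≤ U) :
    b.L.fixingSubgroup.comap (primeLocalToGlobal q) ≤ U :=
  (Subgroup.comap_mono (IntermediateField.fixingSubgroup_antitone h)).trans hU

omit hU in
/-- Smoothness of `(PadicAlgCl q)ˣ` over `U`. -/
theorem s56lh_isSmooth : (s56lh_LU q U).IsSmooth (tl_locUnits q) := by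
  intro x
  obtain ⟨W, hW, h⟩ := tl_isSmooth_locUnits q x
  exact ⟨W.comap U.subtype, ⟨W, hW, rfl⟩, fun u hu => h (u : primeLocalGaloisGroup q) hu⟩

omit hU in
/-- A subgroup containing a level contains the level of a plain level. -/
theorem s56lh_exists_plain (hUl : ∃ W ∈ (tl_levelsLoc q).levels, W ≤ U) :
    ∃ a : s56gd_Fld, a.L.fixingSubgroup.comap (primeLocalToGlobal q) ≤ U := by
  obtain ⟨_, ⟨_, ⟨F, hF, rfl⟩, rfl⟩, hW⟩ := hUl
  have := hF
  exact ⟨s56gdi_closure F, (Subgroup.comap_mono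
    (IntermediateField.fixingSubgroup_antitone (s56gdi_le_closure F))).trans hW⟩

/-- **Every pair of classes of `lvH2 L_U Ω` is inflated from a common plain level**, which can be
chosen above a given one. -/
theorem s56lh_exists_level₂ (x y : lvH2 (s56lh_LU q U) (tl_locUnits q)) :
    ∃ (b : s56gd_Fld) (hab : a ≤ b),
      x ∈ (s56lh_QU q b U (s56lh_hU_mono q U hab hU)).mor.H2.range ∧
      y ∈ (s56lh_QU q b U (s56lh_hU_mono q U hab hU)).mor.H2.range := by
  have hU₀ : (a.L.fixingSubgroup.comap (primeLocalToGlobal q)).comap U.subtype ∈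
      (s56lh_LU q U).levels :=
    ⟨_, ⟨a.L.fixingSubgroup, ⟨a.L, inferInstance, rfl⟩, rfl⟩, rfl⟩
  obtain ⟨_, ⟨_, ⟨_, ⟨F, hF, rfl⟩, rfl⟩, rfl⟩, -, -, Hx⟩ :=
    lvH2_exists_level (s56lh_isSmooth q U) x hU₀
  obtain ⟨_, ⟨_, ⟨_, ⟨F', hF', rfl⟩, rfl⟩, rfl⟩, -, -, Hy⟩ :=
    lvH2_exists_level (s56lh_isSmooth q U) y hU₀
  have := hF
  have := hF'
  let b : s56gd_Fld := ((s56gdi_closure F).sup (s56gdi_closure F')).sup a
  have hab : a ≤ b := s56gd_Fld.le_sup_right _ _
  refine ⟨b, hab, Hx (s56lh_QU q b U (s56lh_hU_mono q U hab hU)) ?_,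
    Hy (s56lh_QU q b U (s56lh_hU_mono q U hab hU)) ?_⟩
  · rw [s56lh_QU_ker]
    apply Subgroup.comap_mono
    apply Subgroup.comap_mono
    exact IntermediateField.fixingSubgroup_antitone
      ((s56gdi_le_closure F).trans ((s56gd_Fld.le_sup_left _ _).trans
        (s56gd_Fld.le_sup_left _ _)))
  · rw [s56lh_QU_ker]
    apply Subgroup.comap_mono
    apply Subgroup.comap_mono
    exact IntermediateField.fixingSubgroup_antitone
      ((s56gdi_le_closure F').trans ((s56gd_Fld.le_sup_right _ _).trans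
        (s56gd_Fld.le_sup_left _ _)))

end

end Fermat.Agent.S56
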