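import Fermat.Agent.S56.GW.LEC.H2.Kummer
import Fermat.Agent.S56.GW.LEC.H2.Quot
import Fermat.Agent.S56.GW.LEC.H2.Deg
import Fermat.Agent.S56.GW.Dual.Local
import Fermat.Agent.S56.GW.LEC.Seams
import Fermat.Agent.S55.Tate.ClassModuleRestrict
import Fermat.Agent.S55.Tate.TNLayer

/-!
# S56 / [GW-LEC] cell [LEC-H2]: `#H²(U, μ_p) = p` for every open subgroup `U` of `G_q`
(prefix `s56lh_`)

`s56lh_main : s56lh_BRcard_stmt`: for every subgroup `U` of the local Galois group containing a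
level, `lvH2 (L|U) μ_p` has exactly `p` elements (`Br(K_U)[p] = ℤ/p`).
-/

set_option autoImplicit false

open CategoryTheory groupCohomology ExtCitation

namespace Fermat.Agent.S56

open Fermat.Agent.S55

local notation "Qbar" => AlgebraicClosure ℚ

noncomputable section

/-! ### Abstract lemmas on groups with an invariant map to `ℚ/ℤ` -/

section abstract

variable {A : Type*} [AddCommGroup A] (p : ℕ) [hp : Fact p.Prime]

/-- A group of exponent-`p` elements all of which are multiples of one nonzero element has `p`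
elements. -/
theorem s56lh_card_of_cyclic {B : Type*} [AddCommGroup B] (x₀ : B) (hx₀ : p • x₀ = 0)
    (hne : x₀ ≠ 0) (h : ∀ y : B, p • y = 0 → ∃ n : ℤ, y = n • x₀) :
    Nat.card {y : B // p • y = 0} = p := by
  have h1 : Nat.card {y : B // p • y = 0} = Nat.card ↥(AddSubgroup.zmultiples x₀) := by
    refine Nat.card_congr (Equiv.subtypeEquivRight fun y => ?_)
    rw [AddSubgroup.mem_zmultiples_iff]
    constructor
    · intro hy
      obtain ⟨n, hn⟩ := h y hy
      exact ⟨n, hn.symm⟩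
    · rintro ⟨n, rfl⟩
      rw [smul_comm, hx₀, smul_zero]
  rw [h1, Nat.card_zmultiples, addOrderOf_eq_prime hx₀ hne]

variable (f : A →+ tt_QZ) (hf : ∀ z : A, tt_IsPPrimary p z → f z = 0 → z = 0)

include hf in
/-- If the invariant is injective on `p`-primary elements, the `p`-torsion is cyclic. -/
theorem s56lh_torsion_multiple (x y : A) (hx : p • x = 0) (hy : p • y = 0) (hne : x ≠ 0) :
    ∃ n : ℤ, y = n • x := by
  have hw0 : p • f x = 0 := by rw [← map_nsmul, hx, map_zero]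
  have hwne : f x ≠ 0 := fun h0 => hne (hf x ⟨1, by rw [pow_one]; exact hx⟩ h0)
  have hord : addOrderOf (f x) = p := addOrderOf_eq_prime hw0 hwne
  obtain ⟨n, hn⟩ := tn_QZ_zmultiple hp.out.pos (f x) (f y) hord
    (by rw [← map_nsmul, hy, map_zero])
  refine ⟨n, ?_⟩
  have h0 : f (y - n • x) = 0 := by rw [map_sub, map_zsmul, hn, sub_self]
  have hpp : tt_IsPPrimary p (y - n • x) :=
    ⟨1, by rw [pow_one, smul_sub, hy, smul_comm, hx, smul_zero, sub_zero]⟩
  exact sub_eq_zero.1 (hf _ hpp h0)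

include hf in
/-- A `p`-primary element whose invariant has order `p ^ (e + 1)` yields an element of order
`p`. -/
theorem s56lh_exists_order_p (u : A) (hu : tt_IsPPrimary p u) (e : ℕ)
    (he : addOrderOf (f u) = p ^ (e + 1)) : ∃ v : A, p • v = 0 ∧ v ≠ 0 := by
  refine ⟨p ^ e • u, ?_, ?_⟩
  · refine hf _ (tt_isPPrimary_nsmul _ (tt_isPPrimary_nsmul _ hu)) ?_
    rw [map_nsmul, map_nsmul, ← mul_smul, ← pow_succ', ← he, addOrderOf_nsmul_eq_zero]
  · intro h0
    have h1 : p ^ e • f u = 0 := by rw [← map_nsmul, h0, map_zero]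
    have h2 := addOrderOf_dvd_of_nsmul_eq_zero h1
    rw [he] at h2
    exact absurd (Nat.le_of_dvd (pow_pos hp.out.pos e) h2)
      (not_le.2 (Nat.pow_lt_pow_right hp.out.one_lt (Nat.lt_succ_self e)))

end abstract

/-! ### The finite levels -/

section level

variable (p : ℕ) [hp : Fact p.Prime] (q : Nat.Primes) (a : s56gd_Fld)
  (U : Subgroup (primeLocalGaloisGroup q))
  (hU : a.L.fixingSubgroup.comap (primeLocalToGlobal q) ≤ U)

/-- The invariant map of the layer `H = im(U → D_q(a))` of the local class module at `a`. -/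
def s56lh_inv : groupCohomology (s56lh_X q a U) 2 →+ tt_QZ :=
  (s56gd_Pq q a p).inv (s56lh_H q a U)

theorem s56lh_inv_inj (z : groupCohomology (s56lh_X q a U) 2) (hz : tt_IsPPrimary p z)
    (h : s56lh_inv p q a U z = 0) : z = 0 :=
  (s56gd_Pq q a p).inv_inj _ z hz h

theorem s56lh_inv_gen : ∃ u : groupCohomology (s56lh_X q a U) 2, tt_IsPPrimary p u ∧
    addOrderOf (s56lh_inv p q a U u) = ordProj[p] (Nat.card ↥(s56lh_H q a U)) := by
  obtain ⟨u, hu, hord⟩ := ((s56gd_Pq q a p).restrict (s56lh_H q a U)).inv_gen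
  refine ⟨u, hu, ?_⟩
  rw [← PClassModule.invTop_apply, PClassModule.restrict_invTop] at hord
  exact hord

/-- Level cohomology of the finite group `H` is Mathlib's group cohomology. -/
def s56lh_brd : lvH2 (LevelSys.trivial ↥(s56lh_H q a U)) (tl_Act (s56lh_X q a U)) ≃+
    groupCohomology (s56lh_X q a U) 2 :=
  lvH2Equiv (s56lh_X q a U) (tl_sf_actEquiv (s56lh_X q a U)) (fun _ _ => rfl)

/-- **Inflation** `H²(H, (a.L·ℚ_q)ˣ) → H²(U, (PadicAlgCl q)ˣ)`. -/
def s56lh_infl :
    groupCohomology (s56lh_X q a U) 2 →+ lvH2 (s56lh_LU q U) (tl_locUnits q) :=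
  (s56lh_QU q a U hU).mor.H2.comp (s56lh_brd q a U).symm.toAddMonoidHom

theorem s56lh_infl_injective : Function.Injective (s56lh_infl q a U hU) := by
  intro w w' h
  exact (s56lh_brd q a U).symm.injective (s56lh_QU_H2_injective q a U hU h)

theorem s56lh_mem_range_infl {x : lvH2 (s56lh_LU q U) (tl_locUnits q)}
    (hx : x ∈ (s56lh_QU q a U hU).mor.H2.range) : ∃ w, s56lh_infl q a U hU w = x := by
  obtain ⟨y, rfl⟩ := hx
  refine ⟨s56lh_brd q a U y, ?_⟩
  show (s56lh_QU q a U hU).mor.H2 ((s56lh_brd q a U).symm (s56lh_brd q a U y)) = _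
  rw [AddEquiv.symm_apply_apply]

end level

/-! ### The `p`-torsion of the Brauer group of `K_U` -/

section main

variable (p : ℕ) [hp : Fact p.Prime] (q : Nat.Primes) (U : Subgroup (primeLocalGaloisGroup q))

/-- **`Br(K_U)[p]` has exactly `p` elements.** -/
theorem s56lh_torsion_card (hUl : ∃ W ∈ (tl_levelsLoc q).levels, W ≤ U) :
    Nat.card {z : lvH2 (s56lh_LU q U) (tl_locUnits q) // p • z = 0} = p := by
  obtain ⟨a₁, ha₁⟩ := s56lh_exists_plain q U hUl
  have hidx : U.index ≠ 0 := by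
    obtain ⟨W, hW, hWU⟩ := hUl
    haveI := (tl_levelsLoc q).finiteIndex W hW
    exact (Subgroup.finiteIndex_of_le hWU).index_ne_zero
  have hk : U.index < p ^ U.index := Nat.lt_pow_self hp.out.one_lt
  obtain ⟨a, haa, hdvd⟩ := s56lh_exists_deg q a₁ (p ^ U.index) (pow_pos hp.out.pos _)
  have hUa := s56lh_hU_mono q U haa ha₁
  have hcard := s56lh_card_mul_index q a U hUa
  have hpH : p ∣ Nat.card ↥(s56lh_H q a U) := by
    by_contra hnd
    have hcop : Nat.Coprime (p ^ U.index) (Nat.card ↥(s56lh_H q a U)) :=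
      Nat.Coprime.pow_left _ ((Nat.Prime.coprime_iff_not_dvd hp.out).2 hnd)
    have h1 : p ^ U.index ∣ U.index :=
      hcop.dvd_of_dvd_mul_left (by rw [hcard]; exact hdvd)
    exact absurd (Nat.le_of_dvd (Nat.pos_of_ne_zero hidx) h1) (not_le.2 hk)
  obtain ⟨u, hu, hord⟩ := s56lh_inv_gen p q a U
  have hfac : (Nat.card ↥(s56lh_H q a U)).factorization p ≠ 0 :=
    (hp.out.factorization_pos_of_dvd Nat.card_pos.ne' hpH).ne'
  obtain ⟨e, he⟩ := Nat.exists_eq_succ_of_ne_zero hfac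
  rw [he] at hord
  obtain ⟨v, hv0, hvne⟩ := s56lh_exists_order_p p (s56lh_inv p q a U) (s56lh_inv_inj p q a U)
    u hu e hord
  have hx₀ : p • s56lh_infl q a U hUa v = 0 := by rw [← map_nsmul, hv0, map_zero]
  have hx₀ne : s56lh_infl q a U hUa v ≠ 0 := fun h =>
    hvne (s56lh_infl_injective q a U hUa (by rw [h, map_zero]))
  refine s56lh_card_of_cyclic p _ hx₀ hx₀ne (fun y hy => ?_)
  obtain ⟨b, hab, hxb, hyb⟩ := s56lh_exists_level₂ q a U hUa (s56lh_infl q a U hUa v) y
  obtain ⟨x', hx'⟩ := s56lh_mem_range_infl q b U _ hxb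
  obtain ⟨y', hy'⟩ := s56lh_mem_range_infl q b U _ hyb
  have inj := s56lh_infl_injective q b U (s56lh_hU_mono q U hab hUa)
  have hx'0 : p • x' = 0 := inj (by rw [map_nsmul, hx', hx₀, map_zero])
  have hy'0 : p • y' = 0 := inj (by rw [map_nsmul, hy', hy, map_zero])
  have hx'ne : x' ≠ 0 := fun h => hx₀ne (by rw [← hx', h, map_zero])
  obtain ⟨n, hn⟩ := s56lh_torsion_multiple p (s56lh_inv p q b U) (s56lh_inv_inj p q b U)
    x' y' hx'0 hy'0 hx'ne
  exact ⟨n, by rw [← hy', ← hx', hn, map_zsmul]⟩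

end main

/-- **[LEC-H2]**, the statement consumed by [GW-LEC] (verbatim copy of `s56l_BRcard_stmt`). -/
def s56lh_BRcard_stmt : Prop :=
  ∀ (p : ℕ) [Fact p.Prime] (q : Nat.Primes) (U : Subgroup (primeLocalGaloisGroup q)),
    (∃ V₀ ∈ (tl_levelsLoc q).levels, V₀ ≤ U) →
    Nat.card (lvH2 (s56esh_LU (tl_levelsLoc q) U) ↥(s56l_mu p q)) = p

/-- **[LEC-H2]**: `#H²(U, μ_p) = p` for every open subgroup `U` of `G_q`. -/
theorem s56lh_main : s56lh_BRcard_stmt := by
  intro p _ q U hUl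
  have hp0 : p ≠ 0 := (Fact.out : p.Prime).ne_zero
  have hinj := s56lh_kummer_injective (s56lh_LU q U)
    (s56l_kummer ↥U (tl_locUnits q) p (tl_locUnits_divisible q p hp0)) (s56lh_isSmooth q U)
    (tl_lvH1_locUnits_subgroup_eq_zero q U)
  have hrange := s56lh_kummer_range (s56lh_LU q U)
    (s56l_kummer ↥U (tl_locUnits q) p (tl_locUnits_divisible q p hp0)) p (fun _ => rfl)
    (s56lh_isSmooth q U)
  refine Eq.trans ?_ (s56lh_torsion_card p q U hUl)
  show Nat.card (lvH2 (s56lh_LU q U) ↥(s56l_mu p q)) = _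
  exact Nat.card_congr (Equiv.ofBijective
    (fun y => ⟨((s56l_kummer ↥U (tl_locUnits q) p
      (tl_locUnits_divisible q p hp0)).mi (s56lh_LU q U)).H2 y, (hrange _).2 ⟨y, rfl⟩⟩)
    ⟨fun y y' h => hinj (congrArg Subtype.val h), fun ⟨z, hz⟩ => by
      obtain ⟨y, hy⟩ := (hrange z).1 hz
      exact ⟨y, Subtype.ext hy⟩⟩)

end

end Fermat.Agent.S56
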